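import Fermat.Agent.WignerSemicircle.Tree
import Mathlib.Data.Fintype.CardEmbedding
import Mathlib.Data.Fintype.BigOperators

/-!
# Counting the walks
-/

set_option autoImplicit false

noncomputable section

namespace FA.WignerSemicircle

open Finset

/-- A walk with `k` steps as a function on `ℕ`. -/
def extendWalk {α : Type*} {k : ℕ} (p : Fin (k + 1) → α) (t : ℕ) : α :=
  p ⟨min t k, Nat.lt_succ_of_le (min_le_right t k)⟩

theorem extendWalk_apply {α : Type*} {k : ℕ} (p : Fin (k + 1) → α) {t : ℕ} (ht : t ≤ k) :
    extendWalk p t = p ⟨t, Nat.lt_succ_of_le ht⟩ :=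
  congrArg p (Fin.ext (min_eq_left ht))

theorem length_eq_count_add (l : List DyckStep) :
    l.length = l.count DyckStep.U + l.count DyckStep.D := by
  induction l with
  | nil => simp
  | cons a l ih => cases a <;> simp [ih] <;> omega

/-- A Dyck word as a function. -/
def boolWord (d : DyckWord) (t : ℕ) : Bool := decide (d.toList.getD t DyckStep.D = DyckStep.U)

theorem count_boolWord (d : DyckWord) (t : ℕ) :
    Nat.count (fun u => boolWord d u = true) t = (d.toList.take t).count DyckStep.U := by
  induction t with
  | zero => simp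
  | succ t ih =>
    rw [Nat.count_succ, ih, List.take_add_one, List.count_append, boolWord]
    rcases lt_or_ge t d.toList.length with h | h
    · rw [List.getD_eq_getElem _ _ h, List.getElem?_eq_getElem h]
      cases d.toList[t] <;> simp
    · rw [List.getD_eq_default _ _ h, List.getElem?_eq_none h]
      simp

/-- A function as a list of steps. -/
def stepList (w : ℕ → Bool) (k : ℕ) : List DyckStep :=
  (List.range k).map fun t => if w t then DyckStep.U else DyckStep.D

theorem take_stepList (w : ℕ → Bool) (k i : ℕ) :
    (stepList w k).take i = stepList w (min i k) := by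
  rw [stepList, stepList, ← List.map_take, List.take_range]

theorem count_stepList (w : ℕ → Bool) (k : ℕ) :
    (stepList w k).count DyckStep.U = Nat.count (fun u => w u = true) k := by
  induction k with
  | zero => simp [stepList]
  | succ k ih =>
    rw [stepList, List.range_succ, List.map_append, List.count_append, ← stepList, ih,
      Nat.count_succ]
    rcases hb : w k with _ | _ <;> simp [hb]

theorem count_stepList_down (w : ℕ → Bool) (k : ℕ) :
    (stepList w k).count DyckStep.D = k - Nat.count (fun u => w u = true) k := by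
  have h := length_eq_count_add (stepList w k)
  rw [count_stepList] at h
  simp [stepList] at h ⊢
  omega

/-- The good words. -/
def GoodWords (m : ℕ) : Type := {w : ℕ → Bool // IsGoodWord m w}

/-- Dyck words are good words. -/
def dyckEquiv (m : ℕ) : {d : DyckWord // d.semilength = m} ≃ GoodWords m where
  toFun d := ⟨boolWord d.1, by
    have hlen : d.1.toList.length = 2 * m := by
      rw [← DyckWord.two_mul_semilength_eq_length, d.2]
    refine ⟨fun t ht => ?_, ?_, fun t ht => ?_⟩
    · rw [boolWord, List.getD_eq_default _ _ (by omega)]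
      simp
    · rw [count_boolWord, List.take_of_length_le hlen.le]
      exact d.2
    · have h1 := length_eq_count_add (d.1.toList.take t)
      have h2 := d.1.count_D_le_count_U t
      rw [List.length_take, hlen, min_eq_left ht] at h1
      rw [count_boolWord]
      omega⟩
  invFun w := ⟨⟨stepList w.1 (2 * m), by
      rw [count_stepList, count_stepList_down, w.2.2.1]; omega, fun i => by
      rw [take_stepList, count_stepList, count_stepList_down]
      have := w.2.2.2 (min i (2 * m)) (min_le_right _ _)
      omega⟩, by rw [DyckWord.semilength, count_stepList, w.2.2.1]⟩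
  left_inv d := by
    have hlen : d.1.toList.length = 2 * m := by
      rw [← DyckWord.two_mul_semilength_eq_length, d.2]
    refine Subtype.ext (DyckWord.ext (List.ext_getElem ?_ fun i h1 h2 => ?_))
    · simp [stepList, hlen]
    · simp only [stepList, List.getElem_map, List.getElem_range, boolWord,
        List.getD_eq_getElem _ _ h2]
      cases d.1.toList[i] <;> simp
  right_inv w := by
    refine Subtype.ext (funext fun t => ?_)
    rcases lt_or_ge t (2 * m) with ht | ht
    · simp only [boolWord]
      rw [List.getD_eq_getElem _ _ (by simpa [stepList] using ht)]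
      simp only [stepList, List.getElem_map, List.getElem_range]
      cases w.1 t <;> simp
    · simp only [boolWord]
      rw [List.getD_eq_default _ _ (by simpa [stepList] using ht), w.2.1 t ht]
      simp

theorem natCard_goodWords (m : ℕ) : Nat.card (GoodWords m) = catalan m := by
  rw [← Nat.card_congr (dyckEquiv m), Nat.card_eq_fintype_card,
    DyckWord.card_dyckWord_semilength_eq_catalan]

/-- A closed walk, every edge used twice, with as many vertices as possible. -/
def IsTreeWalk {n m : ℕ} (p : Fin (2 * m + 1) → Fin n) : Prop :=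
  extendWalk p 0 = extendWalk p (2 * m) ∧ AllTwice (extendWalk p) (2 * m) ∧
    (seenVerts (extendWalk p) (2 * m)).card = m + 1

/-- An embedding extended to `ℕ`. -/
def extendEmb {n m : ℕ} (f : Fin (m + 1) ↪ Fin n) (j : ℕ) : Fin n := extendWalk f j

theorem extendEmb_injOn {n m : ℕ} (f : Fin (m + 1) ↪ Fin n) :
    Set.InjOn (extendEmb f) (range (m + 1) : Finset ℕ) := by
  intro a ha b hb h
  rw [mem_coe, mem_range, Nat.lt_succ_iff] at ha hb
  rw [extendEmb, extendEmb, extendWalk_apply f ha, extendWalk_apply f hb] at h
  exact congrArg Fin.val (f.injective h)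

/-- Tree walks are pairs of a Dyck word and an injection. -/
def treeEquiv (n m : ℕ) :
    {p : Fin (2 * m + 1) → Fin n // IsTreeWalk p} ≃ GoodWords m × (Fin (m + 1) ↪ Fin n) where
  toFun p := (⟨wordOf (extendWalk p.1) m, (treeWalk_word p.2.2.1 p.2.2.2).1⟩,
    ⟨fun j => firstVisit (extendWalk p.1) j, fun a b h => Fin.ext
      (firstVisit_injOn p.2.2.1 p.2.2.2 (mem_coe.2 (mem_range.2 a.isLt))
        (mem_coe.2 (mem_range.2 b.isLt)) h)⟩)
  invFun q := ⟨fun t => extendEmb q.2 (labelAt q.1.1 t), by
    have h := wordWalk_tree (p := extendWalk fun t : Fin (2 * m + 1) =>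
      extendEmb q.2 (labelAt q.1.1 t)) q.1.2 (extendEmb_injOn q.2)
      fun t ht => by rw [extendWalk_apply _ ht]
    exact ⟨h.1, h.2.1, h.2.2.1⟩⟩
  left_inv p := by
    refine Subtype.ext (funext fun t => ?_)
    obtain ⟨hw, hlab, -⟩ := treeWalk_word p.2.2.1 p.2.2.2
    have ht := Nat.le_of_lt_succ t.isLt
    have hl := labelAt_le hw ht
    show extendWalk (fun j : Fin (m + 1) => firstVisit (extendWalk p.1) j)
      (labelAt (wordOf (extendWalk p.1) m) t) = p.1 t
    rw [extendWalk_apply _ hl]
    exact (hlab t ht).symm.trans (extendWalk_apply _ ht)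
  right_inv q := by
    obtain ⟨-, -, -, hword, hvis⟩ := wordWalk_tree (p := extendWalk fun t : Fin (2 * m + 1) =>
      extendEmb q.2 (labelAt q.1.1 t)) q.1.2 (extendEmb_injOn q.2)
      fun t ht => by rw [extendWalk_apply _ ht]
    refine Prod.ext (Subtype.ext hword) (Function.Embedding.ext fun j => ?_)
    show firstVisit _ (j : ℕ) = q.2 j
    rw [hvis j (Nat.le_of_lt_succ j.isLt), extendEmb, extendWalk_apply _ (Nat.le_of_lt_succ j.isLt)]

theorem natCard_treeWalks (n m : ℕ) :
    Nat.card {p : Fin (2 * m + 1) → Fin n // IsTreeWalk p} =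
      catalan m * n.descFactorial (m + 1) := by
  rw [Nat.card_congr (treeEquiv n m), Nat.card_prod, natCard_goodWords, Nat.card_eq_fintype_card,
    Fintype.card_embedding_eq, Fintype.card_fin, Fintype.card_fin]

/-- Few vertices, few walks. -/
theorem card_smallWalks (n k r : ℕ) :
    ((univ : Finset (Fin (k + 1) → Fin n)).filter
      fun p => (seenVerts (extendWalk p) k).card ≤ r).card ≤ n ^ r * r ^ (k + 1) := by
  refine (card_le_card (t := (univ : Finset ((Fin r → Fin n) × (Fin (k + 1) → Fin r))).image
    fun fg => fg.1 ∘ fg.2) fun p hp => ?_).trans (card_image_le.trans (by simp))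
  rw [mem_filter] at hp
  set S := seenVerts (extendWalk p) k
  have hmem : ∀ t, p t ∈ S := fun t =>
    mem_seenVerts.2 ⟨t, Nat.le_of_lt_succ t.isLt, extendWalk_apply p (Nat.le_of_lt_succ t.isLt)⟩
  refine mem_image.2 ⟨(fun i => if h : (i : ℕ) < S.card then ((S.equivFin.symm ⟨i, h⟩ : S) : Fin n)
    else p 0, fun t => Fin.castLE hp.2 (S.equivFin ⟨p t, hmem t⟩)), mem_univ _, funext fun t => ?_⟩
  simp

end FA.WignerSemicircle
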