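import Fermat.Agent.WignerSemicircle.Count
import Mathlib.MeasureTheory.Integral.Pi
import Mathlib.LinearAlgebra.Matrix.Trace
import Mathlib.Analysis.Real.Sqrt
import Mathlib.Analysis.SpecificLimits.Basic

/-!
# The trace of a power and its limit
-/

set_option autoImplicit false

noncomputable section

namespace FA.WignerSemicircle

open Finset MeasureTheory Filter Topology

variable {n : ℕ}

/-- The symmetric matrix of a family indexed by unordered pairs. -/
def wignerMatrix (X : Sym2 (Fin n) → ℝ) : Matrix (Fin n) (Fin n) ℝ :=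
  Matrix.of fun i j => X s(i, j)

theorem power_apply {R : Type*} [CommSemiring R] (A : Matrix (Fin n) (Fin n) R) (k : ℕ)
    (i j : Fin n) : (A ^ k) i j =
      ∑ p : Fin (k + 1) → Fin n, if p 0 = i ∧ p (Fin.last k) = j then
        ∏ t : Fin k, A (p t.castSucc) (p t.succ) else 0 := by
  induction k generalizing i with
  | zero =>
    rw [pow_zero, Matrix.one_apply, ← (Equiv.funUnique (Fin 1) (Fin n)).symm.sum_comp]
    simp [ite_and]
  | succ k ih =>
    rw [pow_succ', Matrix.mul_apply, ← (Fin.consEquiv fun _ => Fin n).sum_comp,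
      Fintype.sum_prod_type]
    simp only [Fin.consEquiv, Equiv.coe_fn_mk, Fin.cons_zero,
      ← Fin.succ_last, Fin.cons_succ, Fin.prod_univ_succ, Fin.castSucc_zero, Fin.castSucc_succ]
    rw [sum_eq_single i (fun a _ ha => sum_eq_zero fun p _ => if_neg fun h => ha h.1)
      (fun h => absurd (mem_univ i) h)]
    simp only [ih, mul_sum, true_and]
    rw [sum_comm]
    refine sum_congr rfl fun p _ => ?_
    rw [sum_eq_single (p 0) (fun b _ hb => by rw [if_neg (fun h => hb h.1.symm), mul_zero])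
      (fun h => absurd (mem_univ _) h)]
    split_ifs with h1 h2 h3 <;> first | rfl | simp_all

/-- The walks that return. -/
def closedWalks (n k : ℕ) : Finset (Fin (k + 1) → Fin n) :=
  univ.filter fun p => extendWalk p 0 = extendWalk p k

theorem trace_pow (X : Sym2 (Fin n) → ℝ) (k : ℕ) :
    (wignerMatrix X ^ k).trace =
      ∑ p ∈ closedWalks n k, ∏ e, X e ^ edgeMult (extendWalk p) k e := by
  rw [Matrix.trace, closedWalks, sum_filter]
  simp only [Matrix.diag_apply, power_apply]
  rw [sum_comm]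
  refine sum_congr rfl fun p _ => ?_
  rw [extendWalk_apply p (Nat.zero_le k), extendWalk_apply p (le_refl k)]
  show (∑ i, if p 0 = i ∧ p (Fin.last k) = i then _ else _) =
    if p 0 = p (Fin.last k) then _ else _
  rw [sum_eq_single (p 0) (fun b _ hb => if_neg fun h => hb h.1.symm)
    (fun h => absurd (mem_univ _) h)]
  simp only [true_and, eq_comm (a := p (Fin.last k))]
  refine if_congr Iff.rfl ?_ rfl
  have h : ∀ t : Fin k, wignerMatrix X (p t.castSucc) (p t.succ) =
      X (walkEdge (extendWalk p) t) := fun t => by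
    rw [walkEdge, extendWalk_apply p t.isLt.le, extendWalk_apply p t.isLt]
    rfl
  rw [prod_congr rfl fun t _ => h t,
    Fin.prod_univ_eq_prod_range (fun t => X (walkEdge (extendWalk p) t)) k, prod_comp]
  refine prod_subset (subset_univ _) fun e _ he => ?_
  rw [card_eq_zero.2 (filter_eq_empty_iff.2 fun t ht hte => he (mem_image.2 ⟨t, ht, hte⟩)),
    pow_zero]

/-- The weight of a walk. -/
def walkMean (μ : Measure ℝ) {k : ℕ} (p : Fin (k + 1) → Fin n) : ℝ :=
  ∏ e : Sym2 (Fin n), ∫ x, x ^ edgeMult (extendWalk p) k e ∂μ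

variable (μ : Measure ℝ)

theorem integral_trace [IsProbabilityMeasure μ] (hμ : ∀ j : ℕ, Integrable (fun x => x ^ j) μ)
    (n k : ℕ) :
    ∫ X, (wignerMatrix X ^ k).trace ∂(Measure.pi fun _ : Sym2 (Fin n) => μ) =
      ∑ p ∈ closedWalks n k, walkMean μ p := by
  simp only [trace_pow]
  rw [integral_finsetSum _ fun p _ => Integrable.fintype_prod
    (f := fun e (x : ℝ) => x ^ edgeMult (extendWalk p) k e) fun e => hμ _]
  exact sum_congr rfl fun p _ => integral_fintype_prod_eq_prod
    (f := fun e (x : ℝ) => x ^ edgeMult (extendWalk p) k e)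

theorem walkMean_eq_zero (h1 : ∫ x, x ∂μ = 0) {k : ℕ} {p : Fin (k + 1) → Fin n}
    (h : ¬AllTwice (extendWalk p) k) : walkMean μ p = 0 := by
  rw [AllTwice] at h
  push Not at h
  obtain ⟨t, ht, hlt⟩ := h
  refine prod_eq_zero (mem_univ (walkEdge (extendWalk p) t)) ?_
  have := edgeMult_pos (p := extendWalk p) ht
  rw [show edgeMult (extendWalk p) k (walkEdge (extendWalk p) t) = 1 by omega]
  simpa using h1

/-- A bound for the moments up to order `k`. -/
def momentBound (k : ℕ) : ℝ := 1 + ∑ j ∈ range (k + 1), |∫ x, x ^ j ∂μ|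

theorem one_le_momentBound (k : ℕ) : 1 ≤ momentBound μ k :=
  le_add_of_nonneg_right (sum_nonneg fun _ _ => abs_nonneg _)

theorem abs_walkMean_le [IsProbabilityMeasure μ] {k : ℕ} (p : Fin (k + 1) → Fin n) :
    |walkMean μ p| ≤ momentBound μ k ^ k := by
  rw [walkMean, ← prod_subset (subset_univ (walkEdges (extendWalk p) k))]
  · rw [abs_prod]
    refine (prod_le_prod (fun _ _ => abs_nonneg _) (g := fun _ => momentBound μ k)
      fun e _ => ?_).trans
      ((prod_const _).trans_le (pow_le_pow_right₀ (one_le_momentBound μ k) ?_))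
    · have hle : edgeMult (extendWalk p) k e ≤ k :=
        (card_filter_le _ _).trans (card_range k).le
      exact (single_le_sum (f := fun j => |∫ x, x ^ j ∂μ|) (fun j _ => abs_nonneg _)
        (mem_range.2 (Nat.lt_succ_of_le hle))).trans (le_add_of_nonneg_left zero_le_one)
    · exact card_image_le.trans (card_range k).le
  · intro e _ he
    rw [show edgeMult (extendWalk p) k e = 0 from Nat.eq_zero_of_not_pos fun h => by
      obtain ⟨u, hu, hue⟩ := exists_of_edgeMult_pos h
      exact he (mem_image.2 ⟨u, mem_range.2 hu, hue⟩)]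
    simp

theorem abs_sum_small_le [IsProbabilityMeasure μ] {k r : ℕ} {s : Finset (Fin (k + 1) → Fin n)}
    (hs : ∀ p ∈ s, (seenVerts (extendWalk p) k).card ≤ r) :
    |∑ p ∈ s, walkMean μ p| ≤ momentBound μ k ^ k * (r : ℝ) ^ (k + 1) * (n : ℝ) ^ r := by
  refine (abs_sum_le_sum_abs _ _).trans ((sum_le_sum fun p _ => abs_walkMean_le μ p).trans ?_)
  rw [sum_const, nsmul_eq_mul, mul_comm, mul_assoc]
  have hc : (s.card : ℝ) ≤ (n : ℝ) ^ r * (r : ℝ) ^ (k + 1) := by
    exact_mod_cast (card_le_card fun p hp => mem_filter.2 ⟨mem_univ p, hs p hp⟩).trans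
      (card_smallWalks n k r)
  rw [mul_comm ((r : ℝ) ^ (k + 1))]
  exact mul_le_mul_of_nonneg_left hc (pow_nonneg (zero_le_one.trans (one_le_momentBound μ k)) k)

theorem walkMean_tree [IsProbabilityMeasure μ] (h2 : ∫ x, x ^ 2 ∂μ = 1) {m : ℕ}
    {p : Fin (2 * m + 1) → Fin n}
    (h : IsTreeWalk p) : walkMean μ p = 1 := by
  refine prod_eq_one fun e _ => ?_
  rcases Nat.eq_zero_or_pos (edgeMult (extendWalk p) (2 * m) e) with h0 | h0
  · simp [h0]
  · obtain ⟨u, hu, rfl⟩ := exists_of_edgeMult_pos h0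
    rw [(h.2.1.tree h.2.2).1 u hu, h2]

theorem main_term [IsProbabilityMeasure μ] (h1 : ∫ x, x ∂μ = 0) (h2 : ∫ x, x ^ 2 ∂μ = 1) (n m : ℕ) :
    |∑ p ∈ closedWalks n (2 * m), walkMean μ p - (catalan m * n.descFactorial (m + 1) : ℕ)| ≤
      momentBound μ (2 * m) ^ (2 * m) * (m : ℝ) ^ (2 * m + 1) * (n : ℝ) ^ m := by
  classical
  have hmain : ∑ p ∈ (closedWalks n (2 * m)).filter (fun p => IsTreeWalk p), walkMean μ p =
      ((catalan m * n.descFactorial (m + 1) : ℕ) : ℝ) := by
    rw [sum_congr rfl fun p hp => walkMean_tree μ h2 (mem_filter.1 hp).2, sum_const, nsmul_eq_mul,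
      mul_one, ← natCard_treeWalks, Nat.card_eq_fintype_card, Fintype.card_subtype]
    congr 2
    ext p
    simp only [mem_filter, closedWalks, mem_univ, true_and, and_iff_right_iff_imp]
    exact fun h => h.1
  rw [← sum_filter_add_sum_filter_not (closedWalks n (2 * m)) (fun p => IsTreeWalk p), hmain,
    add_sub_cancel_left]
  rw [← sum_filter_of_ne (p := fun p => AllTwice (extendWalk p) (2 * m))
    fun p _ hp => not_not.1 fun h => hp (walkMean_eq_zero μ h1 h)]
  refine abs_sum_small_le μ fun p hp => ?_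
  simp only [mem_filter, closedWalks, mem_univ, true_and] at hp
  have := hp.2.card_seenVerts_le
  by_contra hlt
  exact hp.1.2 ⟨hp.1.1, hp.2, by omega⟩

theorem odd_term [IsProbabilityMeasure μ] (h1 : ∫ x, x ∂μ = 0) (n m : ℕ) :
    |∑ p ∈ closedWalks n (2 * m + 1), walkMean μ p| ≤
      momentBound μ (2 * m + 1) ^ (2 * m + 1) * ((m + 1 : ℕ) : ℝ) ^ (2 * m + 2) *
        (n : ℝ) ^ (m + 1) := by
  classical
  rw [← sum_filter_of_ne (p := fun p => AllTwice (extendWalk p) (2 * m + 1))
    fun p _ hp => not_not.1 fun h => hp (walkMean_eq_zero μ h1 h)]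
  refine abs_sum_small_le μ fun p hp => ?_
  have := (mem_filter.1 hp).2.card_seenVerts_le
  omega

theorem tendsto_descFactorial (r : ℕ) :
    Tendsto (fun n : ℕ => (n.descFactorial r : ℝ) / (n : ℝ) ^ r) atTop (𝓝 1) := by
  induction r with
  | zero => simp
  | succ r ih =>
    have hlin : Tendsto (fun n : ℕ => 1 - (r : ℝ) / n) atTop (𝓝 1) := by
      simpa using (tendsto_const_div_atTop_nhds_zero_nat (r : ℝ)).const_sub 1
    have h := hlin.mul ih
    rw [one_mul] at h
    refine h.congr' ?_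
    filter_upwards [eventually_gt_atTop r] with n hn
    have hn0 : (n : ℝ) ≠ 0 := Nat.cast_ne_zero.2 (by omega)
    rw [Nat.descFactorial_succ, pow_succ]
    push_cast [Nat.cast_sub hn.le]
    field_simp

theorem trace_smul_pow (c : ℝ) (X : Sym2 (Fin n) → ℝ) (k : ℕ) :
    ((c • wignerMatrix X) ^ k).trace = c ^ k * (wignerMatrix X ^ k).trace := by
  rw [smul_pow, Matrix.trace_smul, smul_eq_mul]

/-- The limit moments. -/
def limitMoment (k : ℕ) : ℝ := if Even k then (catalan (k / 2) : ℝ) else 0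

theorem tendsto_trace_moment [IsProbabilityMeasure μ] (hμ : ∀ j : ℕ, Integrable (fun x => x ^ j) μ)
    (h1 : ∫ x, x ∂μ = 0) (h2 : ∫ x, x ^ 2 ∂μ = 1) (k : ℕ) :
    Tendsto (fun n : ℕ => (n : ℝ)⁻¹ * ∫ X, (((√(n : ℝ))⁻¹ • wignerMatrix X) ^ k).trace
      ∂(Measure.pi fun _ : Sym2 (Fin n) => μ)) atTop (𝓝 (limitMoment k)) := by
  have e : ∀ n : ℕ, (n : ℝ)⁻¹ * ∫ X, (((√(n : ℝ))⁻¹ • wignerMatrix X) ^ k).trace
      ∂(Measure.pi fun _ : Sym2 (Fin n) => μ) =
      (∑ p ∈ closedWalks n k, walkMean μ p) / ((n : ℝ) * √(n : ℝ) ^ k) := fun n => by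
    simp only [trace_smul_pow]
    rw [integral_const_mul, integral_trace μ hμ, inv_pow, div_eq_mul_inv, mul_inv]
    ring
  simp only [e]
  rcases Nat.even_or_odd' k with ⟨m, rfl | rfl⟩
  · rw [limitMoment, if_pos (even_two_mul m), Nat.mul_div_cancel_left m two_pos]
    have hden : ∀ n : ℕ, (n : ℝ) * √(n : ℝ) ^ (2 * m) = (n : ℝ) ^ (m + 1) := fun n => by
      rw [pow_mul, Real.sq_sqrt (Nat.cast_nonneg n), pow_succ']
    simp only [hden]
    have hC := (tendsto_descFactorial (m + 1)).const_mul (catalan m : ℝ)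
    rw [mul_one] at hC
    have hz : Tendsto (fun n : ℕ => ((∑ p ∈ closedWalks n (2 * m), walkMean μ p) -
        (catalan m * n.descFactorial (m + 1) : ℕ)) / (n : ℝ) ^ (m + 1)) atTop (𝓝 0) := by
      refine squeeze_zero_norm' ?_ (tendsto_const_div_atTop_nhds_zero_nat
        (momentBound μ (2 * m) ^ (2 * m) * (m : ℝ) ^ (2 * m + 1)))
      filter_upwards [eventually_gt_atTop 0] with n hn
      have hn0 : (0 : ℝ) < n := Nat.cast_pos.2 hn
      rw [Real.norm_eq_abs, abs_div, abs_of_pos (pow_pos hn0 _),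
        div_le_div_iff₀ (by positivity) hn0]
      have := mul_le_mul_of_nonneg_right (main_term μ h1 h2 n m) hn0.le
      rw [pow_succ (n : ℝ) m]
      linarith
    have h := hC.add hz
    rw [add_zero] at h
    refine h.congr fun n => ?_
    push_cast
    ring
  · rw [limitMoment, if_neg (Nat.not_even_iff_odd.2 (odd_two_mul_add_one m))]
    have hs : Tendsto (fun n : ℕ => momentBound μ (2 * m + 1) ^ (2 * m + 1) *
        ((m + 1 : ℕ) : ℝ) ^ (2 * m + 2) / √(n : ℝ)) atTop (𝓝 0) :=
      tendsto_const_nhds.div_atTop (Real.tendsto_sqrt_atTop.comp tendsto_natCast_atTop_atTop)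
    refine squeeze_zero_norm' ?_ hs
    filter_upwards [eventually_gt_atTop 0] with n hn
    have hn0 : (0 : ℝ) < n := Nat.cast_pos.2 hn
    have hsq : (n : ℝ) * √(n : ℝ) ^ (2 * m + 1) = (n : ℝ) ^ (m + 1) * √(n : ℝ) := by
      rw [pow_succ, pow_mul, Real.sq_sqrt hn0.le, pow_succ']
      ring
    rw [Real.norm_eq_abs, hsq, abs_div, abs_of_pos (by positivity : (0 : ℝ) < _ * √(n : ℝ)),
      div_le_div_iff₀ (by positivity) (by positivity)]
    have := mul_le_mul_of_nonneg_right (odd_term μ h1 n m) (Real.sqrt_nonneg (n : ℝ))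
    linarith

end FA.WignerSemicircle
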