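import Fermat.Agent.WignerSemicircle.Moments
import Mathlib.Analysis.SpecialFunctions.Integrals.Basic
import Mathlib.Analysis.SpecialFunctions.Sqrt
import Mathlib.Combinatorics.Enumerative.Catalan.Basic

/-!
# The moments of the semicircle
-/

set_option autoImplicit false

noncomputable section

namespace FA.WignerSemicircle

open intervalIntegral

/-- `∫ x ^ j √(4 - x²)` over `[-2, 2]`. -/
def semiIntegral (j : ℕ) : ℝ := ∫ x in (-2 : ℝ)..2, x ^ j * √(4 - x ^ 2)

theorem semiIntegral_zero : semiIntegral 0 = 2 * Real.pi := by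
  have h := integral_comp_mul_left (fun x : ℝ => √(4 - x ^ 2)) (two_ne_zero (α := ℝ))
    (a := (-1)) (b := 1)
  have e : (fun u : ℝ => √(4 - (2 * u) ^ 2)) = fun u => 2 * √(1 - u ^ 2) := funext fun u => by
    rw [show 4 - (2 * u) ^ 2 = 2 ^ 2 * (1 - u ^ 2) by ring, Real.sqrt_mul (by positivity),
      Real.sqrt_sq (by norm_num)]
  rw [e, intervalIntegral.integral_const_mul, integral_sqrt_one_sub_sq, smul_eq_mul] at h
  norm_num at h
  simp only [semiIntegral, pow_zero, one_mul]
  linarith

theorem semiIntegral_rec (j : ℕ) :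
    ((j : ℝ) + 3) * semiIntegral (j + 1) = 4 * j * semiIntegral (j - 1) := by
  set f : ℝ → ℝ := fun x => x ^ j * ((4 - x ^ 2) * √(4 - x ^ 2)) with hf
  have hd : ∀ x ∈ Set.Ioo (-2 : ℝ) 2, HasDerivAt f
      (4 * j * (x ^ (j - 1) * √(4 - x ^ 2)) - ((j : ℝ) + 3) * (x ^ (j + 1) * √(4 - x ^ 2))) x := by
    intro x hx
    have hpos : (0 : ℝ) < 4 - x ^ 2 := by nlinarith [hx.1, hx.2]
    have hg : HasDerivAt (fun x : ℝ => 4 - x ^ 2) (-(2 * x)) x := by
      simpa using (hasDerivAt_pow 2 x).const_sub 4
    have hgs : HasDerivAt (fun x : ℝ => (4 - x ^ 2) * √(4 - x ^ 2))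
        (-(3 * x) * √(4 - x ^ 2)) x := by
      refine (hg.mul (hg.sqrt hpos.ne')).congr_deriv ?_
      have hs : √(4 - x ^ 2) ≠ 0 := (Real.sqrt_pos.2 hpos).ne'
      field_simp
      rw [Real.sq_sqrt hpos.le]
      ring
    refine ((hasDerivAt_pow j x).mul hgs).congr_deriv ?_
    rcases j with _ | i
    · simp
      ring
    · simp only [Nat.add_sub_cancel]
      push_cast
      ring
  have hcont : ∀ i : ℕ, Continuous fun x : ℝ => x ^ i * √(4 - x ^ 2) := fun i => by fun_prop
  have h := integral_eq_sub_of_hasDerivAt_of_le (by norm_num : (-2 : ℝ) ≤ 2)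
    (by rw [hf]; exact (by fun_prop : Continuous fun x : ℝ =>
      x ^ j * ((4 - x ^ 2) * √(4 - x ^ 2))).continuousOn) hd
    (((hcont _).const_mul _).sub ((hcont _).const_mul _) |>.intervalIntegrable _ _)
  rw [integral_sub (((hcont _).const_mul _).intervalIntegrable _ _)
    (((hcont _).const_mul _).intervalIntegrable _ _), intervalIntegral.integral_const_mul,
    intervalIntegral.integral_const_mul, hf] at h
  norm_num at h
  rw [semiIntegral, semiIntegral]
  linarith

theorem catalan_succ_mul (m : ℕ) :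
    ((m : ℝ) + 2) * catalan (m + 1) = 2 * (2 * (m : ℝ) + 1) * catalan m := by
  have h1 : ((m + 1 + 1) * catalan (m + 1) : ℕ) = (m + 1).centralBinom :=
    succ_mul_catalan_eq_centralBinom (m + 1)
  have h2 : ((m + 1) * catalan m : ℕ) = m.centralBinom := succ_mul_catalan_eq_centralBinom m
  have h3 := Nat.succ_mul_centralBinom_succ m
  have h4 : (m + 1) * ((m + 2) * catalan (m + 1)) = (m + 1) * (2 * (2 * m + 1) * catalan m) := by
    rw [show m + 2 = m + 1 + 1 from rfl, h1, h3, ← h2]
    ring
  exact_mod_cast Nat.eq_of_mul_eq_mul_left (Nat.succ_pos m) h4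

theorem semicircle_value (k : ℕ) :
    (2 * Real.pi)⁻¹ * semiIntegral k = limitMoment k := by
  have hπ : (2 * Real.pi) ≠ 0 := by positivity
  induction k using Nat.twoStepInduction with
  | zero =>
    simp [semiIntegral_zero, limitMoment]
    field_simp
  | one =>
    have h := semiIntegral_rec 0
    simp at h
    simp [limitMoment, h]
  | more k ih _ =>
    have h := semiIntegral_rec (k + 1)
    simp only [Nat.add_sub_cancel] at h
    push_cast at h
    have hk : semiIntegral k = 2 * Real.pi * limitMoment k := by rw [← ih]; field_simp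
    rw [hk] at h
    have hrec : ((k : ℝ) + 4) * limitMoment (k + 2) = 4 * ((k : ℝ) + 1) * limitMoment k := by
      rcases Nat.even_or_odd' k with ⟨m, rfl | rfl⟩
      · rw [limitMoment, limitMoment, if_pos (by simp [parity_simps]), if_pos (even_two_mul m),
          show 2 * m + 2 = 2 * (m + 1) by ring, Nat.mul_div_cancel_left _ two_pos,
          Nat.mul_div_cancel_left _ two_pos]
        push_cast
        linear_combination 2 * catalan_succ_mul m
      · rw [limitMoment, limitMoment, if_neg (by simp [parity_simps]),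
          if_neg (Nat.not_even_iff_odd.2 (odd_two_mul_add_one m))]
        ring
    refine mul_left_cancel₀ (by positivity : ((k : ℝ) + 4) ≠ 0) ?_
    rw [hrec]
    field_simp
    linarith

open MeasureTheory Filter Topology Finset in
theorem tendsto_trace_polynomial (μ : Measure ℝ) [IsProbabilityMeasure μ]
    (hμ : ∀ j : ℕ, Integrable (fun x => x ^ j) μ) (h1 : ∫ x, x ∂μ = 0)
    (h2 : ∫ x, x ^ 2 ∂μ = 1) (P : Polynomial ℝ) :
    Tendsto (fun n : ℕ => (n : ℝ)⁻¹ * ∫ X,
      (Polynomial.aeval ((√(n : ℝ))⁻¹ • wignerMatrix X) P).trace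
        ∂(Measure.pi fun _ : Sym2 (Fin n) => μ)) atTop
      (𝓝 ((2 * Real.pi)⁻¹ * ∫ x in (-2 : ℝ)..2, P.eval x * √(4 - x ^ 2))) := by
  have hint : ∀ (n k : ℕ), Integrable (fun X => (((√(n : ℝ))⁻¹ • wignerMatrix X) ^ k).trace)
      (Measure.pi fun _ : Sym2 (Fin n) => μ) := fun n k => by
    simp only [trace_smul_pow, trace_pow]
    exact (integrable_finsetSum _ fun p _ => Integrable.fintype_prod
      (f := fun e (x : ℝ) => x ^ edgeMult (extendWalk p) k e) fun e => hμ _).const_mul _
  have hlim := tendsto_finsetSum (range (P.natDegree + 1)) fun i _ =>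
    (tendsto_trace_moment μ hμ h1 h2 i).const_mul (P.coeff i)
  have hrhs : (2 * Real.pi)⁻¹ * ∫ x in (-2 : ℝ)..2, P.eval x * √(4 - x ^ 2) =
      ∑ i ∈ range (P.natDegree + 1), P.coeff i * limitMoment i := by
    simp only [Polynomial.eval_eq_sum_range, Finset.sum_mul]
    rw [intervalIntegral.integral_finsetSum fun i _ =>
      (by fun_prop : Continuous fun x : ℝ => P.coeff i * x ^ i * √(4 - x ^ 2)).intervalIntegrable
        _ _, Finset.mul_sum]
    refine Finset.sum_congr rfl fun i _ => ?_
    simp only [← semicircle_value, semiIntegral, mul_assoc, intervalIntegral.integral_const_mul]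
    ring
  rw [hrhs]
  refine hlim.congr fun n => ?_
  simp only [Polynomial.aeval_eq_sum_range, Matrix.trace_sum, Matrix.trace_smul, smul_eq_mul]
  rw [integral_finsetSum _ fun i _ => (hint n i).const_mul _, Finset.mul_sum]
  refine Finset.sum_congr rfl fun i _ => ?_
  rw [MeasureTheory.integral_const_mul]
  ring

end FA.WignerSemicircle
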