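import Fermat.Agent.WignerSemicircle.Walks

/-!
# Tree walks and Dyck words
-/

set_option autoImplicit false

namespace FA.WignerSemicircle

open Finset

variable {α : Type*} [DecidableEq α] {m : ℕ}

/-- The word of a walk: `true` at a step to a new vertex. -/
def wordOf (p : ℕ → α) (m : ℕ) (t : ℕ) : Bool := decide (t < 2 * m ∧ IsNewStep p t)

theorem count_wordOf (p : ℕ → α) (m : ℕ) {t : ℕ} (ht : t ≤ 2 * m) :
    Nat.count (fun u => wordOf p m u = true) t = Nat.count (IsNewStep p) t := by
  rw [Nat.count_eq_card_filter_range, Nat.count_eq_card_filter_range]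
  refine congrArg Finset.card (filter_congr fun u hu => ?_)
  simp [wordOf, show u < 2 * m by rw [mem_range] at hu; omega]

/-- The vertices of a walk in the order of their first visit. -/
noncomputable def firstVisit (p : ℕ → α) (j : ℕ) : α :=
  if j = 0 then p 0 else p (Nat.nth (IsNewStep p) (j - 1) + 1)

theorem firstVisit_new {p : ℕ → α} {t : ℕ} (h : IsNewStep p t) :
    firstVisit p (Nat.count (IsNewStep p) t + 1) = p (t + 1) := by
  rw [firstVisit, if_neg (Nat.succ_ne_zero _), Nat.add_sub_cancel, Nat.nth_count h]

omit [DecidableEq α] in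
theorem pairs_pop {v : α} {l : List α} {e : Sym2 α} (hnd : (v :: l).Nodup)
    (he : e ∈ pairsOf (v :: l)) (hv : v ∈ e) : ∃ u l', l = u :: l' ∧ e = s(v, u) := by
  match l, hnd, he with
  | [], _, he => simp [pairsOf] at he
  | u :: l', hnd, he =>
    refine ⟨u, l', rfl, ?_⟩
    rw [pairsOf, List.mem_cons] at he
    rcases he with he | he
    · exact he
    · exact absurd (mem_of_mem_pairsOf he v hv) (List.nodup_cons.1 hnd).1

/-- What holds after `t` steps of a tree walk. -/
structure TreeState (p : ℕ → α) (m t : ℕ) : Prop where
  len : (stackAt (wordOf p m) t).length + t = 2 * Nat.count (IsNewStep p) t + 1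
  top : ∃ l, (stackAt (wordOf p m) t).map (firstVisit p) = p t :: l
  last : ((stackAt (wordOf p m) t).map (firstVisit p)).getLast? = some (p 0)
  nodup : ((stackAt (wordOf p m) t).map (firstVisit p)).Nodup
  seen : ∀ v ∈ (stackAt (wordOf p m) t).map (firstVisit p), v ∈ seenVerts p t
  once : ∀ e, edgeMult p t e = 1 → e ∈ pairsOf ((stackAt (wordOf p m) t).map (firstVisit p))
  pairs : ∀ e ∈ pairsOf ((stackAt (wordOf p m) t).map (firstVisit p)), edgeMult p t e = 1

theorem treeState {p : ℕ → α} (h : AllTwice p (2 * m))
    (hv : (seenVerts p (2 * m)).card = m + 1) : ∀ t ≤ 2 * m, TreeState p m t := by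
  obtain ⟨htwo, hcreate⟩ := h.tree hv
  intro t
  induction t with
  | zero =>
    intro _
    refine ⟨by simp [stackAt], ⟨[], by simp [stackAt, firstVisit]⟩, by simp [stackAt, firstVisit],
      by simp [stackAt], ?_, ?_, ?_⟩
    · simp [stackAt, firstVisit, seenVerts]
    · simp [edgeMult]
    · simp [stackAt, pairsOf]
  | succ t ih =>
    intro ht
    obtain ⟨hlen, ⟨l, htop⟩, hlast, hnd, hseen, honce, hpairs⟩ := ih (by omega)
    by_cases hnew : IsNewStep p t
    · have hw : wordOf p m t = true := by simp [wordOf, hnew, show t < 2 * m by omega]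
      have hs : (stackAt (wordOf p m) (t + 1)).map (firstVisit p) =
          p (t + 1) :: p t :: l := by
        simp only [stackAt, hw, if_true, List.map_cons]
        rw [count_wordOf p m (by omega), firstVisit_new hnew, htop]
      refine ⟨?_, ⟨_, hs⟩, ?_, ?_, ?_, ?_, ?_⟩
      · rw [Nat.count_succ, if_pos hnew]
        simp only [stackAt, hw, if_true, List.length_cons]
        omega
      · rwa [hs, List.getLast?_cons_cons, ← htop]
      · rw [hs, List.nodup_cons, ← htop]
        exact ⟨fun hmem => hnew (hseen _ hmem), hnd⟩
      · intro v hv'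
        rw [hs, List.mem_cons, ← htop] at hv'
        rcases hv' with rfl | hv'
        · exact mem_seenVerts.2 ⟨t + 1, le_rfl, rfl⟩
        · obtain ⟨u, hu, rfl⟩ := mem_seenVerts.1 (hseen v hv')
          exact mem_seenVerts.2 ⟨u, by omega, rfl⟩
      · intro e he
        rw [hs, pairsOf, List.mem_cons, ← htop]
        rw [edgeMult_succ] at he
        split_ifs at he with hte
        · exact Or.inl (hte ▸ Sym2.eq_swap)
        · exact Or.inr (honce e he)
      · intro e he
        rw [hs, pairsOf, List.mem_cons, ← htop] at he
        rw [edgeMult_succ]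
        rcases he with rfl | he
        · rw [Sym2.eq_swap (a := p (t + 1)), show s(p t, p (t + 1)) = walkEdge p t from rfl,
            edgeMult_new hnew, if_pos rfl]
        · have h1 := hpairs e he
          rw [if_neg (fun hte => ?_), h1]
          subst hte
          rw [edgeMult_new hnew] at h1
          omega
    · have hw : wordOf p m t = false := by simp [wordOf, hnew]
      set e₀ := walkEdge p t with he₀
      have h2 := htwo t (by omega)
      have h01 : edgeMult p t e₀ + 1 ≤ 2 := by
        have := edgeMult_mono p (show t + 1 ≤ 2 * m by omega) e₀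
        rw [edgeMult_succ, if_pos he₀.symm, h2] at this
        exact this
      obtain ⟨u, hu, hun, hue⟩ := hcreate t (by omega)
      have hut : u < t := by
        rcases lt_trichotomy u t with hlt | heq | hgt
        · exact hlt
        · exact absurd (heq ▸ hun) hnew
        · exact absurd (endpoint_seen hgt (hue ▸ Sym2.mem_mk_right _ _)) hun
      have hpos : 0 < edgeMult p t e₀ := he₀.symm ▸ hue ▸ edgeMult_pos hut
      have hone : edgeMult p t e₀ = 1 := by omega
      have hmem := honce e₀ hone
      rw [htop] at hmem hnd
      obtain ⟨v, l', rfl, heq⟩ := pairs_pop hnd hmem (Sym2.mem_mk_left _ _)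
      have hv : v = p (t + 1) := (Sym2.congr_right.1 (he₀.symm.trans heq)).symm
      subst hv
      have hs : (stackAt (wordOf p m) (t + 1)).map (firstVisit p) = p (t + 1) :: l' := by
        simp only [stackAt, hw, Bool.false_eq_true, if_false, List.map_tail, htop, List.tail_cons]
      refine ⟨?_, ⟨_, hs⟩, ?_, ?_, ?_, ?_, ?_⟩
      · rw [Nat.count_succ, if_neg hnew, add_zero]
        simp only [stackAt, hw, Bool.false_eq_true, if_false, List.length_tail]
        have := congrArg List.length htop
        simp only [List.length_map, List.length_cons] at this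
        omega
      · rw [htop, List.getLast?_cons_cons] at hlast
        rwa [hs]
      · rw [hs]
        exact (List.nodup_cons.1 hnd).2
      · intro x hx
        rw [hs] at hx
        obtain ⟨u', hu', rfl⟩ := mem_seenVerts.1 (hseen x (htop ▸ List.mem_cons_of_mem _ hx))
        exact mem_seenVerts.2 ⟨u', by omega, rfl⟩
      · intro e he
        rw [edgeMult_succ] at he
        split_ifs at he with hte
        · rw [← hte, ← he₀] at he; omega
        · have := honce e he
          rw [htop, pairsOf, List.mem_cons] at this
          rw [hs]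
          rcases this with rfl | this
          · exact absurd rfl hte
          · exact this
      · intro e he
        rw [hs] at he
        have h1 := hpairs e (by rw [htop, pairsOf]; exact List.mem_cons_of_mem _ he)
        rw [edgeMult_succ, if_neg (fun hte => ?_), h1]
        subst hte
        exact (List.nodup_cons.1 hnd).1 (mem_of_mem_pairsOf he _ (Sym2.mem_mk_left _ _))

/-- The end of a tree walk. -/
theorem treeWalk_word {p : ℕ → α} (h : AllTwice p (2 * m))
    (hv : (seenVerts p (2 * m)).card = m + 1) :
    IsGoodWord m (wordOf p m) ∧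
      (∀ t ≤ 2 * m, p t = firstVisit p (labelAt (wordOf p m) t)) ∧ p 0 = p (2 * m) := by
  have hcount : Nat.count (IsNewStep p) (2 * m) = m := by
    rw [card_seenVerts] at hv; omega
  refine ⟨⟨fun t ht => by simp [wordOf, show ¬t < 2 * m by omega], ?_, fun t ht => ?_⟩, ?_, ?_⟩
  · rw [count_wordOf p m le_rfl, hcount]
  · obtain ⟨hlen, ⟨l, htop⟩, -⟩ := treeState h hv t ht
    have := congrArg List.length htop
    simp only [List.length_map, List.length_cons] at this
    rw [count_wordOf p m ht]
    omega
  · intro t ht
    obtain ⟨l, htop⟩ := (treeState h hv t ht).top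
    obtain ⟨a, l', hl⟩ := List.exists_cons_of_ne_nil
      (show stackAt (wordOf p m) t ≠ [] from fun h0 => by simp [h0] at htop)
    rw [hl, List.map_cons, List.cons.injEq] at htop
    simp [labelAt, hl, htop.1]
  · obtain ⟨hlen, ⟨l, htop⟩, hlast, -⟩ := treeState h hv (2 * m) le_rfl
    have hl := congrArg List.length htop
    simp only [List.length_map, List.length_cons] at hl
    obtain rfl : l = [] := List.length_eq_zero_iff.1 (by omega)
    rw [htop] at hlast
    simpa using hlast.symm

theorem firstVisit_injOn {p : ℕ → α} (h : AllTwice p (2 * m))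
    (hv : (seenVerts p (2 * m)).card = m + 1) :
    Set.InjOn (firstVisit p) (range (m + 1) : Finset ℕ) := by
  refine card_image_iff.1 (le_antisymm card_image_le ?_)
  refine (card_range (m + 1)).trans_le (hv.symm.trans_le (card_le_card fun v hv' => ?_))
  obtain ⟨t, ht, rfl⟩ := mem_seenVerts.1 hv'
  obtain ⟨hw, hlab, -⟩ := treeWalk_word h hv
  rw [hlab t ht]
  exact mem_image_of_mem _ (mem_range.2 (Nat.lt_succ_of_le (labelAt_le hw ht)))

/-- What holds after `t` steps of the walk of a word. -/
structure WordState (g : ℕ → α) (w : ℕ → Bool) (p : ℕ → α) (t : ℕ) : Prop where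
  seen : ∀ v ∈ seenVerts p t, ∃ j ≤ Nat.count (fun u => w u = true) t, g j = v
  word : ∀ u < t, (IsNewStep p u ↔ w u = true)
  once : ∀ e, edgeMult p t e = 1 → e ∈ pairsOf ((stackAt w t).map g)
  pairs : ∀ e ∈ pairsOf ((stackAt w t).map g), 0 < edgeMult p t e
  onto : ∀ j ≤ Nat.count (fun u => w u = true) t, g j ∈ seenVerts p t

theorem wordState {g : ℕ → α} {w : ℕ → Bool} {p : ℕ → α} (hw : IsGoodWord m w)
    (hg : Set.InjOn g (range (m + 1) : Finset ℕ))
    (hp : ∀ t ≤ 2 * m, p t = g (labelAt w t)) : ∀ t ≤ 2 * m, WordState g w p t := by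
  intro t
  induction t with
  | zero =>
    intro _
    have h0 : p 0 = g 0 := by rw [hp 0 (Nat.zero_le _)]; simp [labelAt, stackAt]
    refine ⟨fun v hv => ?_, fun u hu => by omega, by simp [edgeMult],
      by simp [stackAt, pairsOf], fun j hj => ?_⟩
    · simp [seenVerts] at hv
      exact ⟨0, le_rfl, by rw [hv, ← h0]⟩
    · simp [Nat.count_zero] at hj
      simp [seenVerts, hj, h0]
  | succ t ih =>
    intro ht
    obtain ⟨hseen, hword, honce, hpairs, honto⟩ := ih (by omega)
    obtain ⟨l, hl, -⟩ := stack_cons hw (show t ≤ 2 * m by omega)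
    obtain ⟨l₁, hl₁, -⟩ := stack_cons hw ht
    have hpt := hp t (by omega)
    have hpt₁ := hp (t + 1) ht
    have hmap : (stackAt w t).map g = p t :: l.map g := by rw [hl, List.map_cons, hpt]
    have hmap₁ : (stackAt w (t + 1)).map g = p (t + 1) :: l₁.map g := by
      rw [hl₁, List.map_cons, hpt₁]
    have hcle := Nat.count_monotone (fun u => w u = true) ht
    rw [hw.2.1, Nat.count_succ] at hcle
    rcases hb : w t with _ | _
    · -- back along the stack
      have hshape := (stack_shape hw (t + 1) ht).1
      simp only [stackAt, hb, Bool.false_eq_true, if_false] at hl₁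
      rw [hl, List.tail_cons] at hl₁
      rw [hl₁, List.map_cons, ← hpt₁] at hmap
      have hseen₁ : p (t + 1) ∈ seenVerts p t := by
        rw [hpt₁]
        refine honto _ ((stack_shape hw t (by omega)).2.2 _ ?_)
        rw [hl, hl₁]; simp
      have hnew : ¬IsNewStep p t := not_not.2 hseen₁
      have hsv : seenVerts p (t + 1) = seenVerts p t := by
        rw [seenVerts, range_add_one, image_insert, ← seenVerts, insert_eq_of_mem hseen₁]
      have hc : Nat.count (fun u => w u = true) (t + 1) = Nat.count (fun u => w u = true) t := by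
        rw [Nat.count_succ, if_neg (by simp [hb]), add_zero]
      have he : 0 < edgeMult p t (walkEdge p t) := hpairs _ (by rw [hmap]; simp [walkEdge, pairsOf])
      refine ⟨by rw [hsv, hc]; exact hseen, fun u hu => ?_, fun e he1 => ?_, fun e he1 => ?_,
        by rw [hsv, hc]; exact honto⟩
      · rcases eq_or_lt_of_le (Nat.le_of_lt_succ hu) with rfl | hu
        · exact iff_of_false hnew (by simp [hb])
        · exact hword u hu
      · rw [edgeMult_succ] at he1
        split_ifs at he1 with hte
        · subst hte; omega
        · have := honce e he1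
          rw [hmap, pairsOf, List.mem_cons] at this
          rw [hmap₁]
          rcases this with rfl | this
          · exact absurd rfl hte
          · exact this
      · rw [edgeMult_succ]
        rw [hmap₁] at he1
        exact Nat.lt_of_lt_of_le
          (hpairs e (by rw [hmap, pairsOf]; exact List.mem_cons_of_mem _ he1))
          (Nat.le_add_right _ _)
    · -- a new vertex
      rw [if_pos hb] at hcle
      have hlab : labelAt w (t + 1) = Nat.count (fun u => w u = true) t + 1 := by
        simp [labelAt, stackAt, hb]
      have hnew : IsNewStep p t := fun hmem => by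
        obtain ⟨j, hj, hgj⟩ := hseen _ hmem
        rw [hpt₁, hlab] at hgj
        have := hg (mem_coe.2 (mem_range.2 (by omega))) (mem_coe.2 (mem_range.2 (by omega))) hgj
        omega
      have hmap₂ : (stackAt w (t + 1)).map g = p (t + 1) :: (stackAt w t).map g := by
        rw [hpt₁, hlab]; simp [stackAt, hb]
      have hc : Nat.count (fun u => w u = true) (t + 1) =
          Nat.count (fun u => w u = true) t + 1 := by rw [Nat.count_succ, if_pos hb]
      have hsv : seenVerts p (t + 1) = insert (p (t + 1)) (seenVerts p t) := by
        rw [seenVerts, range_add_one, image_insert, ← seenVerts]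
      refine ⟨fun v hv => ?_, fun u hu => ?_, fun e he => ?_, fun e he => ?_, fun j hj => ?_⟩
      · rw [hsv, mem_insert] at hv
        rcases hv with rfl | hv
        · exact ⟨_, hc.ge, by rw [hpt₁, hlab]⟩
        · obtain ⟨j, hj, rfl⟩ := hseen v hv
          exact ⟨j, by omega, rfl⟩
      · rcases eq_or_lt_of_le (Nat.le_of_lt_succ hu) with rfl | hu
        · exact iff_of_true hnew hb
        · exact hword u hu
      · rw [hmap₂, hmap, pairsOf, List.mem_cons, ← hmap]
        rw [edgeMult_succ] at he
        split_ifs at he with hte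
        · exact Or.inl (hte ▸ Sym2.eq_swap)
        · exact Or.inr (honce e he)
      · rw [hmap₂, hmap, pairsOf, List.mem_cons, ← hmap] at he
        rw [edgeMult_succ]
        rcases he with rfl | he
        · rw [Sym2.eq_swap, if_pos (show walkEdge p t = s(p t, p (t + 1)) from rfl)]; omega
        · exact Nat.lt_of_lt_of_le (hpairs e he) (Nat.le_add_right _ _)
      · rw [hc] at hj
        rw [hsv, mem_insert]
        rcases eq_or_lt_of_le hj with rfl | hj
        · exact Or.inl (by rw [hpt₁, hlab])
        · exact Or.inr (honto j (by omega))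

/-- The walk of a word is a tree walk. -/
theorem wordWalk_tree {g : ℕ → α} {w : ℕ → Bool} {p : ℕ → α} (hw : IsGoodWord m w)
    (hg : Set.InjOn g (range (m + 1) : Finset ℕ))
    (hp : ∀ t ≤ 2 * m, p t = g (labelAt w t)) :
    p 0 = p (2 * m) ∧ AllTwice p (2 * m) ∧ (seenVerts p (2 * m)).card = m + 1 ∧
      wordOf p m = w ∧ ∀ j ≤ m, firstVisit p j = g j := by
  obtain ⟨hseen, hword, honce, -, -⟩ := wordState hw hg hp (2 * m) le_rfl
  have hlen := (stack_shape hw (2 * m) le_rfl)
  rw [hw.2.1] at hlen
  obtain ⟨a, ha⟩ := List.length_eq_one_iff.1 (show (stackAt w (2 * m)).length = 1 by omega)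
  have ha0 : a = 0 := by simpa [ha] using hlen.2.1
  have hcount : ∀ t ≤ 2 * m, Nat.count (IsNewStep p) t = Nat.count (fun u => w u = true) t :=
    fun t ht => by
      rw [Nat.count_eq_card_filter_range, Nat.count_eq_card_filter_range]
      exact congrArg Finset.card (filter_congr fun u hu =>
        hword u (by rw [mem_range] at hu; omega))
  refine ⟨?_, fun t ht => ?_, ?_, funext fun t => ?_, ?_⟩
  · rw [hp 0 (Nat.zero_le _), hp _ le_rfl]
    simp [labelAt, ha, ha0, stackAt]
  · refine Nat.lt_of_le_of_ne (edgeMult_pos ht) fun h1 => ?_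
    simpa [ha, pairsOf] using honce _ h1.symm
  · rw [card_seenVerts, hcount _ le_rfl, hw.2.1]
  · rcases lt_or_ge t (2 * m) with ht | ht
    · simp only [wordOf, ht, true_and, hword t ht, Bool.decide_eq_true]
    · simp [wordOf, show ¬t < 2 * m by omega, hw.1 t ht]
  · intro j hj
    rcases j.eq_zero_or_pos with rfl | hj0
    · rw [firstVisit, if_pos rfl, hp 0 (Nat.zero_le _)]
      simp [labelAt, stackAt]
    obtain ⟨i, rfl⟩ := Nat.exists_eq_succ_of_ne_zero hj0.ne'
    have hex : ∀ k, i < Nat.count (fun u => w u = true) k →
        ∃ t < k, w t = true ∧ Nat.count (fun u => w u = true) t = i := by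
      intro k
      induction k with
      | zero => simp
      | succ k ihk =>
        intro hk
        rw [Nat.count_succ] at hk
        rcases lt_or_ge i (Nat.count (fun u => w u = true) k) with h | h
        · obtain ⟨t, h1, h2, h3⟩ := ihk h
          exact ⟨t, by omega, h2, h3⟩
        · split_ifs at hk with hb
          · exact ⟨k, by omega, hb, by omega⟩
          · omega
    obtain ⟨t, ht, hwt, hti⟩ := hex (2 * m) (by rw [hw.2.1]; omega)
    rw [← hti, ← hcount t ht.le, Nat.succ_eq_add_one, firstVisit_new ((hword t ht).2 hwt),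
      hp (t + 1) ht, hcount t ht.le]
    simp [labelAt, stackAt, hwt]

end FA.WignerSemicircle
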