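import Mathlib.Data.Sym.Sym2
import Mathlib.Combinatorics.Enumerative.DyckWord
import Mathlib.Data.Nat.Count
import Mathlib.Data.Nat.Nth
import Mathlib.Algebra.BigOperators.Group.Finset.Basic
import Mathlib.Tactic

/-!
# Walks in which every edge is used twice

Such a walk of length `2 m` has at most `m + 1` vertices; with exactly `m + 1` it runs around a
tree, and is given by a Dyck word and the list of its vertices.
-/

set_option autoImplicit false

namespace FA.WignerSemicircle

open Finset

variable {α : Type*} [DecidableEq α]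

/-- The `t`-th edge. -/
def walkEdge (p : ℕ → α) (t : ℕ) : Sym2 α := s(p t, p (t + 1))

/-- The multiplicity of `e` among the first `t` edges. -/
def edgeMult (p : ℕ → α) (t : ℕ) (e : Sym2 α) : ℕ :=
  ((range t).filter fun u => walkEdge p u = e).card

theorem edgeMult_succ (p : ℕ → α) (t : ℕ) (e : Sym2 α) :
    edgeMult p (t + 1) e = edgeMult p t e + if walkEdge p t = e then 1 else 0 := by
  rw [edgeMult, edgeMult, range_add_one, filter_insert]
  split_ifs <;> simp

theorem edgeMult_mono (p : ℕ → α) {t u : ℕ} (h : t ≤ u) (e : Sym2 α) :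
    edgeMult p t e ≤ edgeMult p u e :=
  card_le_card (filter_subset_filter _ (range_mono h))

theorem exists_of_edgeMult_pos {p : ℕ → α} {t : ℕ} {e : Sym2 α} (h : 0 < edgeMult p t e) :
    ∃ u < t, walkEdge p u = e := by
  obtain ⟨u, hu⟩ := card_pos.1 h
  rw [mem_filter, mem_range] at hu
  exact ⟨u, hu⟩

theorem edgeMult_pos {p : ℕ → α} {t u : ℕ} (h : u < t) : 0 < edgeMult p t (walkEdge p u) :=
  card_pos.2 ⟨u, by simp [h]⟩

/-- The vertices among the first `t + 1` positions. -/
def seenVerts (p : ℕ → α) (t : ℕ) : Finset α := (range (t + 1)).image p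

theorem mem_seenVerts {p : ℕ → α} {t : ℕ} {v : α} :
    v ∈ seenVerts p t ↔ ∃ u ≤ t, p u = v := by
  simp [seenVerts]

/-- A step to a vertex not seen before. -/
def IsNewStep (p : ℕ → α) (t : ℕ) : Prop := p (t + 1) ∉ seenVerts p t

instance (p : ℕ → α) : DecidablePred (IsNewStep p) := fun _ => by
  unfold IsNewStep; infer_instance

theorem endpoint_seen {p : ℕ → α} {t u : ℕ} (h : u < t) {v : α} (hv : v ∈ walkEdge p u) :
    v ∈ seenVerts p t := by
  rcases Sym2.mem_iff.1 hv with rfl | rfl
  · exact mem_seenVerts.2 ⟨u, h.le, rfl⟩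
  · exact mem_seenVerts.2 ⟨u + 1, h, rfl⟩

theorem edgeMult_new {p : ℕ → α} {t : ℕ} (h : IsNewStep p t) :
    edgeMult p t (walkEdge p t) = 0 := by
  refine Nat.eq_zero_of_not_pos fun h0 => ?_
  obtain ⟨u, hu, he⟩ := exists_of_edgeMult_pos h0
  exact h (endpoint_seen hu (he ▸ Sym2.mem_mk_right _ _))

theorem card_seenVerts (p : ℕ → α) (t : ℕ) :
    (seenVerts p t).card = Nat.count (IsNewStep p) t + 1 := by
  induction t with
  | zero => simp [seenVerts]
  | succ t ih =>
    rw [Nat.count_succ, seenVerts, range_add_one, image_insert, ← seenVerts]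
    by_cases h : IsNewStep p t
    · rw [card_insert_of_notMem h, if_pos h, ih]
    · rw [insert_eq_of_mem (not_not.1 h), if_neg h, ih, add_zero]

/-- The edges of the first `k` steps. -/
def walkEdges (p : ℕ → α) (k : ℕ) : Finset (Sym2 α) := (range k).image (walkEdge p)

theorem sum_edgeMult (p : ℕ → α) (k : ℕ) : ∑ e ∈ walkEdges p k, edgeMult p k e = k := by
  rw [walkEdges, show (∑ e ∈ (range k).image (walkEdge p), edgeMult p k e) = (range k).card from
    (card_eq_sum_card_image (walkEdge p) (range k)).symm, card_range]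

theorem injOn_newEdge (p : ℕ → α) (k : ℕ) :
    Set.InjOn (walkEdge p) ((range k).filter (IsNewStep p) : Finset ℕ) := by
  intro a ha b hb hab
  rw [mem_coe, mem_filter] at ha hb
  rcases lt_trichotomy a b with h | h | h
  · exact absurd (endpoint_seen h (hab ▸ Sym2.mem_mk_right _ _)) hb.2
  · exact h
  · exact absurd (endpoint_seen h (hab.symm ▸ Sym2.mem_mk_right _ _)) ha.2

theorem count_new_le (p : ℕ → α) (k : ℕ) :
    Nat.count (IsNewStep p) k ≤ (walkEdges p k).card := by
  rw [Nat.count_eq_card_filter_range, ← card_image_of_injOn (injOn_newEdge p k), walkEdges]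
  exact card_le_card (image_subset_image (filter_subset _ _))

/-- Every edge of the walk is used at least twice. -/
def AllTwice (p : ℕ → α) (k : ℕ) : Prop := ∀ t < k, 2 ≤ edgeMult p k (walkEdge p t)

instance (p : ℕ → α) (k : ℕ) : Decidable (AllTwice p k) := by
  unfold AllTwice; infer_instance

theorem AllTwice.two_mul_card_le {p : ℕ → α} {k : ℕ} (h : AllTwice p k) :
    2 * (walkEdges p k).card ≤ k := by
  have h2 : ∑ _e ∈ walkEdges p k, 2 ≤ ∑ e ∈ walkEdges p k, edgeMult p k e :=
    sum_le_sum fun e he => by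
      obtain ⟨t, ht, rfl⟩ := mem_image.1 he
      exact h t (mem_range.1 ht)
  rw [sum_edgeMult, sum_const, smul_eq_mul, mul_comm] at h2
  exact h2

theorem AllTwice.card_seenVerts_le {p : ℕ → α} {k : ℕ} (h : AllTwice p k) :
    2 * (seenVerts p k).card ≤ k + 2 := by
  have h1 := h.two_mul_card_le
  have h2 := count_new_le p k
  rw [card_seenVerts]
  omega

theorem AllTwice.tree {p : ℕ → α} {m : ℕ} (h : AllTwice p (2 * m))
    (hv : (seenVerts p (2 * m)).card = m + 1) :
    (∀ t < 2 * m, edgeMult p (2 * m) (walkEdge p t) = 2) ∧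
      ∀ t < 2 * m, ∃ u < 2 * m, IsNewStep p u ∧ walkEdge p u = walkEdge p t := by
  have h1 := h.two_mul_card_le
  have h2 := count_new_le p (2 * m)
  rw [card_seenVerts] at hv
  have hm : (walkEdges p (2 * m)).card = m := by omega
  refine ⟨fun t ht => ?_, fun t ht => ?_⟩
  · have hle : ∀ e ∈ walkEdges p (2 * m), 2 ≤ edgeMult p (2 * m) e := fun e he => by
      obtain ⟨t, ht, rfl⟩ := mem_image.1 he
      exact h t (mem_range.1 ht)
    refine (le_antisymm (h t ht) ?_).symm
    by_contra hlt
    have := sum_lt_sum hle ⟨_, mem_image_of_mem _ (mem_range.2 ht), lt_of_not_ge hlt⟩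
    rw [sum_edgeMult, sum_const, hm, smul_eq_mul] at this
    omega
  · have e : ((range (2 * m)).filter (IsNewStep p)).image (walkEdge p) = walkEdges p (2 * m) := by
      refine eq_of_subset_of_card_le (image_subset_image (filter_subset _ _)) ?_
      rw [card_image_of_injOn (injOn_newEdge p _), ← Nat.count_eq_card_filter_range]
      omega
    have := mem_image_of_mem (walkEdge p) (mem_range.2 ht)
    rw [← walkEdges, ← e, mem_image] at this
    obtain ⟨u, hu, hue⟩ := this
    rw [mem_filter, mem_range] at hu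
    exact ⟨u, hu.1, hu.2, hue⟩

/-- The consecutive pairs of a list. -/
def pairsOf : List α → List (Sym2 α)
  | a :: b :: l => s(a, b) :: pairsOf (b :: l)
  | _ => []

omit [DecidableEq α] in
theorem mem_of_mem_pairsOf : ∀ {l : List α} {e : Sym2 α}, e ∈ pairsOf l → ∀ v ∈ e, v ∈ l
  | [], _, h, _, _ => by simp [pairsOf] at h
  | [a], _, h, _, _ => by simp [pairsOf] at h
  | a :: b :: l, e, h, v, hv => by
    rw [pairsOf, List.mem_cons] at h
    rcases h with rfl | h
    · rcases Sym2.mem_iff.1 hv with rfl | rfl <;> simp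
    · exact List.mem_cons_of_mem _ (mem_of_mem_pairsOf h v hv)

/-- The stack of vertex numbers after `t` steps of the word `w`. -/
def stackAt (w : ℕ → Bool) : ℕ → List ℕ
  | 0 => [0]
  | t + 1 => if w t then (Nat.count (fun u => w u = true) t + 1) :: stackAt w t
      else (stackAt w t).tail

/-- The vertex number at time `t`. -/
def labelAt (w : ℕ → Bool) (t : ℕ) : ℕ := (stackAt w t).headI

/-- A Dyck word of semilength `m` as a function, `true` for `U`. -/
def IsGoodWord (m : ℕ) (w : ℕ → Bool) : Prop :=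
  (∀ t, 2 * m ≤ t → w t = false) ∧ Nat.count (fun u => w u = true) (2 * m) = m ∧
    ∀ t ≤ 2 * m, t ≤ 2 * Nat.count (fun u => w u = true) t

theorem stack_shape {m : ℕ} {w : ℕ → Bool} (hw : IsGoodWord m w) :
    ∀ t ≤ 2 * m, (stackAt w t).length + t = 2 * Nat.count (fun u => w u = true) t + 1 ∧
      (stackAt w t).getLast? = some 0 ∧
      ∀ j ∈ stackAt w t, j ≤ Nat.count (fun u => w u = true) t := by
  intro t
  induction t with
  | zero => intro _; simp [stackAt]
  | succ t ih =>
    intro ht
    obtain ⟨h1, h2, h3⟩ := ih (by omega)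
    rcases hb : w t with _ | _
    · have hg := hw.2.2 (t + 1) ht
      rw [Nat.count_succ, if_neg (by simp [hb]), add_zero] at hg ⊢
      simp only [stackAt, hb, Bool.false_eq_true, if_false]
      obtain ⟨a, l, hl⟩ := List.exists_cons_of_ne_nil
        (show stackAt w t ≠ [] from List.ne_nil_of_length_pos (by omega))
      rw [hl] at h1 h2 h3 ⊢
      simp only [List.length_cons, List.tail_cons] at h1 ⊢
      refine ⟨by omega, ?_, fun j hj => h3 j (List.mem_cons_of_mem _ hj)⟩
      obtain ⟨a', l', hl'⟩ := List.exists_cons_of_ne_nil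
        (show l ≠ [] from List.ne_nil_of_length_pos (by omega))
      subst hl'
      rwa [List.getLast?_cons_cons] at h2
    · rw [Nat.count_succ, if_pos hb]
      simp only [stackAt, hb, if_true]
      obtain ⟨a, l, hl⟩ := List.exists_cons_of_ne_nil
        (show stackAt w t ≠ [] from fun h => by simp [h] at h2)
      refine ⟨by simp only [List.length_cons]; omega, ?_, fun j hj => ?_⟩
      · rw [hl, List.getLast?_cons_cons, ← hl, h2]
      · rcases List.mem_cons.1 hj with rfl | hj
        · exact le_rfl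
        · exact (h3 j hj).trans (Nat.le_succ _)

theorem stack_cons {m : ℕ} {w : ℕ → Bool} (hw : IsGoodWord m w) {t : ℕ} (ht : t ≤ 2 * m) :
    ∃ l, stackAt w t = labelAt w t :: l ∧ labelAt w t ≤ Nat.count (fun u => w u = true) t := by
  obtain ⟨-, h2, h3⟩ := stack_shape hw t ht
  obtain ⟨a, l, hl⟩ := List.exists_cons_of_ne_nil
    (show stackAt w t ≠ [] from fun h => by simp [h] at h2)
  refine ⟨l, ?_⟩
  have : labelAt w t = a := by simp [labelAt, hl]
  rw [this]
  exact ⟨hl, h3 a (hl ▸ List.mem_cons_self)⟩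

theorem labelAt_le {m : ℕ} {w : ℕ → Bool} (hw : IsGoodWord m w) {t : ℕ} (ht : t ≤ 2 * m) :
    labelAt w t ≤ m := by
  obtain ⟨l, -, h⟩ := stack_cons hw ht
  exact h.trans ((Nat.count_monotone _ ht).trans hw.2.1.le)

end FA.WignerSemicircle
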